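/-
S33 programme, brick A1 (helper58): ordinarity from a cubic identity on inertia.
Mathlib only.

Setting: `T` a Henselian reduced local ring, `V` free of rank 2 over `T`, a group `G` acting
`T`-linearly through `ρ`, subgroups `I` (inertia) and `D` (decomposition) with `D` normalising
`I`, an element `σ₀ ∈ I` with `det ρ(σ₀) - 1` a unit and
`tr ρ(σ₀) ≡ det ρ(σ₀) + 1` modulo the maximal ideal, and the cubic identity
`(ρ(σ₀) - det ρ(σ₀)) (ρ(σ) - 1) (ρ(σ') - 1) = 0` for `σ σ' ∈ I`.
Conclusion: there is a basis `b` such that the line `T ∙ b 0` is `D`-stable and `I` acts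
trivially on the quotient.
-/
import Mathlib

set_option autoImplicit false

namespace Fermat.Agent.S33P.A1Cubic58

open IsLocalRing Module Polynomial

section Algebra

variable {T : Type*} [CommRing T]

lemma isUnit_add_of_mem_maximalIdeal [IsLocalRing T] {a b : T} (ha : IsUnit a)
    (hb : b ∈ maximalIdeal T) : IsUnit (a + b) := by
  by_contra h
  have h1 : a + b ∈ maximalIdeal T := (IsLocalRing.mem_maximalIdeal _).mpr h
  have h2 : a ∈ maximalIdeal T := by
    have := (maximalIdeal T).sub_mem h1 hb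
    simpa using this
  exact (IsLocalRing.mem_maximalIdeal _).mp h2 ha

/-- Hensel: the quadratic `X² - tX + d` with `t ≡ d + 1` and `d - 1` a unit splits with roots
`α ≡ d`, `β ≡ 1`. -/
lemma exists_roots [HenselianLocalRing T] (t d : T) (hu : IsUnit (d - 1))
    (ht : t - (d + 1) ∈ maximalIdeal T) :
    ∃ α β : T, α + β = t ∧ α * β = d ∧ β - 1 ∈ maximalIdeal T ∧ IsUnit (α - β) := by
  set f : T[X] := X ^ (1 + 1) - (C t * X - C d) with hf
  have hmonic : f.Monic := by
    apply monic_X_pow_sub
    have h1 : (C t * X - C d).degree ≤ 1 := by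
      refine (degree_sub_le (C t * X) (C d)).trans (max_le ?_ ?_)
      · exact degree_C_mul_X_le t
      · exact (degree_C_le (a := d)).trans (by norm_num)
    exact lt_of_le_of_lt h1 (by norm_num)
  have heval : f.eval 1 = -(t - (d + 1)) := by
    simp [hf]; ring
  have hder : f.derivative.eval 1 = -(d - 1) + (-(t - (d + 1))) := by
    simp [hf]; ring
  obtain ⟨β, hβroot, hβ⟩ := HenselianLocalRing.is_henselian f hmonic 1
    (by rw [heval]; exact (maximalIdeal T).neg_mem ht)
    (by rw [hder]; exact isUnit_add_of_mem_maximalIdeal hu.neg ((maximalIdeal T).neg_mem ht))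
  have hroot : β ^ 2 - t * β + d = 0 := by
    have := hβroot
    simp only [hf, IsRoot, eval_sub, eval_pow, eval_X, eval_mul, eval_C] at this
    linear_combination this
  refine ⟨t - β, β, by ring, by linear_combination -hroot, hβ, ?_⟩
  have : t - β - β = (d - 1) + ((t - (d + 1)) + (-2) * (β - 1)) := by ring
  rw [this]
  exact isUnit_add_of_mem_maximalIdeal hu
    ((maximalIdeal T).add_mem ht ((maximalIdeal T).mul_mem_left _ hβ))

end Algebra

section Lin

variable {T : Type*} [CommRing T] {V : Type*} [AddCommGroup V] [Module T V]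

/-- Cayley–Hamilton in rank two. -/
lemma cayley_hamilton_two [Nontrivial T] [Module.Free T V] [Module.Finite T V]
    (hrank : finrank T V = 2) (A : Module.End T V) (v : V) :
    A (A v) - LinearMap.trace T V A • A v + LinearMap.det A • v = 0 := by
  let b : Basis (Fin 2) T V := Module.finBasisOfFinrankEq T V hrank
  have h1 := LinearMap.aeval_self_charpoly A
  rw [← LinearMap.charpoly_toMatrix A b, Matrix.charpoly_fin_two,
    ← LinearMap.trace_eq_matrix_trace T b A, LinearMap.det_toMatrix b A] at h1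
  have h2 := LinearMap.congr_fun h1 v
  simpa [pow_two, Algebra.smul_def] using h2

variable {M N : Module.End T V} {u w : T}

/-- Two commuting operators `M`, `N` with `M N = 0` and `M - N` an invertible scalar split the
module as `ker N ⊕ ker M`, and `ker N = range M`, `ker M = range N`. -/
lemma splitting (hMN : ∀ v, M (N v) = 0) (hsub : ∀ v, M v - N v = u • v) (hw : w * u = 1) :
    IsCompl (LinearMap.ker N) (LinearMap.ker M) ∧
      LinearMap.ker N = LinearMap.range M ∧ LinearMap.ker M = LinearMap.range N := by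
  have hM : ∀ v, M v = N v + u • v := fun v => by rw [← hsub v]; abel
  have hNM : ∀ v, N (M v) = 0 := by
    intro v
    have h1 := hMN v
    rw [hM (N v)] at h1
    rw [hM v, map_add, map_smul]
    exact h1
  have hwu : ∀ v : V, w • u • v = v := fun v => by rw [smul_smul, hw, one_smul]
  have hkerN : LinearMap.ker N = LinearMap.range M := by
    ext v
    constructor
    · intro hv
      rw [LinearMap.mem_ker] at hv
      refine ⟨w • v, ?_⟩
      rw [map_smul, hM v, hv, zero_add, hwu]
    · rintro ⟨x, rfl⟩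
      exact hNM x
  have hkerM : LinearMap.ker M = LinearMap.range N := by
    ext v
    constructor
    · intro hv
      rw [LinearMap.mem_ker] at hv
      refine ⟨-(w • v), ?_⟩
      have h2 := hsub v
      rw [hv, zero_sub] at h2
      rw [map_neg, map_smul, neg_eq_iff_eq_neg.mp h2, smul_neg, neg_neg, hwu]
    · rintro ⟨x, rfl⟩
      exact hMN x
  refine ⟨⟨?_, ?_⟩, hkerN, hkerM⟩
  · rw [Submodule.disjoint_def]
    intro v hvN hvM
    rw [LinearMap.mem_ker] at hvN hvM
    have h2 := hsub v
    rw [hvN, hvM, sub_zero] at h2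
    rw [← hwu v, ← h2, smul_zero]
  · rw [codisjoint_iff, eq_top_iff]
    intro v _
    rw [hkerN, hkerM]
    have : v = M (w • v) + N (-(w • v)) := by
      rw [map_neg, ← sub_eq_add_neg, hsub, smul_comm, hwu]
    rw [this]
    exact Submodule.add_mem_sup ⟨_, rfl⟩ ⟨_, rfl⟩

/-- An endomorphism which is upper triangular with lower-right entry `1` in some basis has
trace `det + 1`. -/
lemma trace_eq_det_add_one (f : Module.End T V) (b : Basis (Fin 2) T V) {a c : T}
    (h0 : f (b 0) = a • b 0) (h1 : f (b 1) - b 1 = c • b 0) :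
    LinearMap.trace T V f = LinearMap.det f + 1 := by
  have h1' : f (b 1) = b 1 + c • b 0 := by rw [← h1]; abel
  rw [LinearMap.trace_eq_matrix_trace T b f, ← LinearMap.det_toMatrix b f, Matrix.trace_fin_two,
    Matrix.det_fin_two]
  simp only [LinearMap.toMatrix_apply, h0, h1', map_add, map_smul, Basis.repr_self,
    Finsupp.smul_apply, Finsupp.add_apply, Finsupp.single_apply]
  simp

/-- Over a local ring, two nonzero complementary submodules of a free module of rank two are
spanned by the two vectors of a basis. -/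
lemma exists_generators [IsLocalRing T] [Module.Free T V] [Module.Finite T V]
    (hrank : finrank T V = 2) (L K : Submodule T V) (h : IsCompl L K) (hL : L ≠ ⊥)
    (hK : K ≠ ⊥) :
    ∃ b : Basis (Fin 2) T V, L = T ∙ b 0 ∧ K = T ∙ b 1 := by
  have hLproj : Module.Projective T L :=
    Module.Projective.of_split L.subtype (L.projectionOnto K h) (by ext x; simp)
  have hKproj : Module.Projective T K :=
    Module.Projective.of_split K.subtype (K.projectionOnto L h.symm) (by ext x; simp)
  have hLfin : Module.Finite T L :=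
    Module.Finite.of_surjective (L.projectionOnto K h) (fun x => ⟨x, by simp⟩)
  have hKfin : Module.Finite T K :=
    Module.Finite.of_surjective (K.projectionOnto L h.symm) (fun x => ⟨x, by simp⟩)
  have : Module.Free T L := Module.free_of_flat_of_isLocalRing
  have : Module.Free T K := Module.free_of_flat_of_isLocalRing
  have hsum : finrank T L + finrank T K = 2 := by
    rw [← Module.finrank_prod, (Submodule.prodEquivOfIsCompl L K h).finrank_eq, hrank]
  have hL0 : finrank T L ≠ 0 := by
    intro h0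
    have := (Module.finrank_eq_zero_iff_of_free T L).mp h0
    exact hL (Submodule.subsingleton_iff_eq_bot.mp this)
  have hK0 : finrank T K ≠ 0 := by
    intro h0
    have := (Module.finrank_eq_zero_iff_of_free T K).mp h0
    exact hK (Submodule.subsingleton_iff_eq_bot.mp this)
  have hL1 : finrank T L = 1 := by omega
  have hK1 : finrank T K = 1 := by omega
  let bL : Basis (Fin 1) T L := Module.finBasisOfFinrankEq T L hL1
  let bK : Basis (Fin 1) T K := Module.finBasisOfFinrankEq T K hK1
  let b : Basis (Fin 2) T V :=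
    ((bL.prod bK).map (Submodule.prodEquivOfIsCompl L K h)).reindex finSumFinEquiv
  have hs0 : (finSumFinEquiv (m := 1) (n := 1)).symm 0 = Sum.inl 0 :=
    finSumFinEquiv_symm_apply_castAdd (0 : Fin 1)
  have hs1 : (finSumFinEquiv (m := 1) (n := 1)).symm 1 = Sum.inr 0 :=
    finSumFinEquiv_symm_apply_natAdd (0 : Fin 1)
  have hb0 : b 0 = (bL 0 : V) := by
    simp [b, hs0]
  have hb1 : b 1 = (bK 0 : V) := by
    simp [b, hs1]
  refine ⟨b, ?_, ?_⟩
  · rw [hb0]
    have h1 : Submodule.span T (Set.range bL) = ⊤ := bL.span_eq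
    have h2 := congrArg (Submodule.map L.subtype) h1
    rw [Submodule.map_subtype_top, Submodule.map_span, Set.range_unique, Set.image_singleton]
      at h2
    exact h2.symm
  · rw [hb1]
    have h1 : Submodule.span T (Set.range bK) = ⊤ := bK.span_eq
    have h2 := congrArg (Submodule.map K.subtype) h1
    rw [Submodule.map_subtype_top, Submodule.map_span, Set.range_unique, Set.image_singleton]
      at h2
    exact h2.symm

end Lin

section Main

variable {T : Type*} [CommRing T] [HenselianLocalRing T] [IsReduced T]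
  {V : Type*} [AddCommGroup V] [Module T V] [Module.Free T V] [Module.Finite T V]
  {G : Type*} [Group G]

/-- **A1, minimal form.** Only the cubic identity with `τ = σ₀` is used, and the determinant
only at `σ₀`. -/
theorem ordinary_of_cubic (hrank : finrank T V = 2) (ρ : G →* Module.End T V)
    (I D : Subgroup G) (hnorm : ∀ d ∈ D, ∀ σ ∈ I, d * σ * d⁻¹ ∈ I)
    {σ₀ : G} (hσ₀ : σ₀ ∈ I)
    (hunit : IsUnit (LinearMap.det (ρ σ₀) - 1))
    (htr : LinearMap.trace T V (ρ σ₀) - (LinearMap.det (ρ σ₀) + 1) ∈ maximalIdeal T)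
    (hcubic : ∀ σ ∈ I, ∀ σ' ∈ I, ∀ v : V,
      (ρ σ₀ - LinearMap.det (ρ σ₀) • (1 : Module.End T V)) ((ρ σ - 1) ((ρ σ' - 1) v)) = 0) :
    ∃ L : Submodule T V, (∃ b : Basis (Fin 2) T V, L = T ∙ b 0) ∧
      (∀ d ∈ D, ∀ v ∈ L, ρ d v ∈ L) ∧ (∀ σ ∈ I, ∀ v : V, ρ σ v - v ∈ L) := by
  obtain ⟨α, β, hsum, hprod, hβ, huαβ⟩ :=
    exists_roots (LinearMap.trace T V (ρ σ₀)) (LinearMap.det (ρ σ₀)) hunit htr
  obtain ⟨w, hw⟩ := huαβ.exists_left_inv
  obtain ⟨M, hMdef⟩ : ∃ M : Module.End T V, M = ρ σ₀ - β • (1 : Module.End T V) := ⟨_, rfl⟩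
  obtain ⟨N, hNdef⟩ : ∃ N : Module.End T V, N = ρ σ₀ - α • (1 : Module.End T V) := ⟨_, rfl⟩
  have hMv : ∀ v, M v = ρ σ₀ v - β • v := fun v => by
    rw [hMdef, LinearMap.sub_apply, LinearMap.smul_apply, Module.End.one_apply]
  have hNv : ∀ v, N v = ρ σ₀ v - α • v := fun v => by
    rw [hNdef, LinearMap.sub_apply, LinearMap.smul_apply, Module.End.one_apply]
  have hMN : ∀ v, M (N v) = 0 := by
    intro v
    have h1 := cayley_hamilton_two hrank (ρ σ₀) v
    rw [← hsum, ← hprod] at h1
    rw [hMv, hNv, map_sub, map_smul]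
    linear_combination (norm := module) h1
  have hsub : ∀ v, M v - N v = (α - β) • v := by
    intro v
    rw [hMv, hNv]
    module
  obtain ⟨hcompl, hkerN, hkerM⟩ := splitting hMN hsub hw
  -- both eigenspaces are nonzero
  have htrace_smul : ∀ c : T, LinearMap.trace T V (c • (1 : Module.End T V)) = c * 2 := by
    intro c
    rw [map_smul, LinearMap.trace_one, hrank, smul_eq_mul]
    norm_num
  have hαβ : α - β ≠ 0 := fun h => by
    rw [h] at huαβ
    exact not_isUnit_zero huαβ
  have hLne : LinearMap.ker N ≠ ⊥ := by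
    intro hbot
    rw [hkerN, LinearMap.range_eq_bot, hMdef] at hbot
    have h1 : ρ σ₀ = β • (1 : Module.End T V) := sub_eq_zero.mp hbot
    have h2 : LinearMap.trace T V (ρ σ₀) = β * 2 := by rw [h1, htrace_smul]
    apply hαβ
    linear_combination hsum + h2
  have hKne : LinearMap.ker M ≠ ⊥ := by
    intro hbot
    rw [hkerM, LinearMap.range_eq_bot, hNdef] at hbot
    have h1 : ρ σ₀ = α • (1 : Module.End T V) := sub_eq_zero.mp hbot
    have h2 : LinearMap.trace T V (ρ σ₀) = α * 2 := by rw [h1, htrace_smul]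
    apply hαβ
    linear_combination -hsum - h2
  obtain ⟨b, hbL, hbK⟩ := exists_generators hrank _ _ hcompl hLne hKne
  have hb1M : M (b 1) = 0 := by
    have : b 1 ∈ LinearMap.ker M := by
      rw [hbK]
      exact Submodule.mem_span_singleton_self _
    exact this
  have hAb1 : ρ σ₀ (b 1) = β • b 1 := by
    have := hb1M
    rw [hMv, sub_eq_zero] at this
    exact this
  have hsmul_inj : ∀ c : T, c • b 1 = 0 → c = 0 := by
    intro c hc
    have := congrArg (fun x => b.repr x 1) hc
    simpa using this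
  -- (a) β = 1
  have hβ1 : β = 1 := by
    have h1 := hcubic σ₀ hσ₀ σ₀ hσ₀ (b 1)
    simp only [LinearMap.sub_apply, LinearMap.smul_apply, Module.End.one_apply, map_sub,
      map_smul, hAb1] at h1
    have h2 : ((β - LinearMap.det (ρ σ₀)) * (β - 1) ^ 2) • b 1 = 0 := by
      linear_combination (norm := module) h1
    have h3 := hsmul_inj _ h2
    have hunit' : IsUnit (β - LinearMap.det (ρ σ₀)) := by
      have : β - LinearMap.det (ρ σ₀) = -(LinearMap.det (ρ σ₀) - 1) + (β - 1) := by ring
      rw [this]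
      exact isUnit_add_of_mem_maximalIdeal hunit.neg hβ
    have h4 : (β - 1) ^ 2 = 0 := by
      obtain ⟨c, hc⟩ := hunit'.exists_left_inv
      calc (β - 1) ^ 2 = c * ((β - LinearMap.det (ρ σ₀)) * (β - 1) ^ 2) := by
            rw [← mul_assoc, hc, one_mul]
        _ = 0 := by rw [h3, mul_zero]
    have h5 : β - 1 = 0 := IsReduced.eq_zero _ ⟨2, h4⟩
    exact sub_eq_zero.mp h5
  have hd : α = LinearMap.det (ρ σ₀) := by rw [← hprod, hβ1, mul_one]
  have hM1 : ∀ v, M v = (ρ σ₀ - 1) v := by
    intro v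
    rw [hMv, hβ1, one_smul, LinearMap.sub_apply, Module.End.one_apply]
  have hNd : ∀ v, N v = (ρ σ₀ - LinearMap.det (ρ σ₀) • (1 : Module.End T V)) v := by
    intro v
    rw [hNdef, hd]
  -- (b) the line is stable under inertia
  have hLstab : ∀ σ ∈ I, ∀ l ∈ LinearMap.ker N, (ρ σ - 1) l ∈ LinearMap.ker N := by
    intro σ hσ l hl
    rw [hkerN] at hl
    obtain ⟨x, rfl⟩ := hl
    rw [LinearMap.mem_ker, hNd, hM1]
    exact hcubic σ hσ σ₀ hσ₀ x
  -- (c) inertia acts trivially on the quotient
  have hItriv : ∀ σ ∈ I, ∀ v, (ρ σ - 1) v ∈ LinearMap.ker N := by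
    intro σ hσ
    have hb1 : (ρ σ - 1) (b 1) ∈ LinearMap.ker N := by
      have hdec : (ρ σ - 1) (b 1) ∈ LinearMap.ker N ⊔ LinearMap.ker M := by
        rw [hcompl.sup_eq_top]
        trivial
      obtain ⟨l₁, hl₁, k, hk, hlk⟩ := Submodule.mem_sup.mp hdec
      rw [hbK, Submodule.mem_span_singleton] at hk
      obtain ⟨c, rfl⟩ := hk
      have hx : (ρ σ - 1) (b 1) = l₁ + c • b 1 := hlk.symm
      have hy : (ρ σ - 1) ((ρ σ - 1) (b 1)) = (ρ σ - 1) l₁ + c • l₁ + (c * c) • b 1 := by
        rw [hx, map_add, map_smul, hx]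
        module
      have e1 : N ((ρ σ - 1) l₁) = 0 := hLstab σ hσ l₁ hl₁
      have e2 : N l₁ = 0 := hl₁
      have e3 : N (b 1) = (β - α) • b 1 := by rw [hNv, hAb1, sub_smul]
      have h1 := hcubic σ hσ σ hσ (b 1)
      rw [← hNd, hy, map_add, map_add, map_smul, map_smul, e1, e2, e3] at h1
      have h2 : (c * c * (β - α)) • b 1 = 0 := by
        linear_combination (norm := module) h1
      have h3 := hsmul_inj _ h2
      have h4 : c * c = 0 := by
        linear_combination (-w) * h3 - (c * c) * hw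
      have h5 : c = 0 := IsReduced.eq_zero _ ⟨2, by rw [pow_two]; exact h4⟩
      rw [hx, h5, zero_smul, add_zero]
      exact hl₁
    intro v
    have hdec : v ∈ LinearMap.ker N ⊔ LinearMap.ker M := by
      rw [hcompl.sup_eq_top]
      trivial
    obtain ⟨l, hl, k, hk, rfl⟩ := Submodule.mem_sup.mp hdec
    rw [hbK, Submodule.mem_span_singleton] at hk
    obtain ⟨c', rfl⟩ := hk
    rw [map_add, map_smul]
    exact Submodule.add_mem _ (hLstab σ hσ l hl) (Submodule.smul_mem _ _ hb1)
  refine ⟨LinearMap.ker N, ⟨b, hbL⟩, ?_, ?_⟩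
  · -- (d) stability under the decomposition group
    intro d hdD l hl
    rw [hkerN] at hl
    obtain ⟨x, rfl⟩ := hl
    have hτ := hnorm d hdD σ₀ hσ₀
    have h1 := hItriv (d * σ₀ * d⁻¹) hτ (ρ d x)
    have hinv : ρ (d * σ₀ * d⁻¹) (ρ d x) = ρ d (ρ σ₀ x) :=
      calc ρ (d * σ₀ * d⁻¹) (ρ d x) = (ρ (d * σ₀ * d⁻¹) * ρ d) x := rfl
        _ = ρ (d * σ₀ * d⁻¹ * d) x := by rw [← map_mul]
        _ = ρ (d * σ₀) x := by rw [inv_mul_cancel_right]
        _ = (ρ d * ρ σ₀) x := by rw [map_mul]
        _ = ρ d (ρ σ₀ x) := rfl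
    rw [LinearMap.sub_apply, Module.End.one_apply, hinv, ← map_sub] at h1
    rw [hM1, LinearMap.sub_apply, Module.End.one_apply]
    exact h1
  · intro σ hσ v
    have h1 := hItriv σ hσ v
    rw [LinearMap.sub_apply, Module.End.one_apply] at h1
    exact h1

/-- **A1 in the signature of brick 764** (operator form of the cubic identity, a function `ε`
computing the determinant on inertia). -/
theorem exists_line_of_cubic (hV : finrank T V = 2) (ρ : G →* Module.End T V)
    (I D : Subgroup G) (hnorm : ∀ d ∈ D, ∀ σ ∈ I, d * σ * d⁻¹ ∈ I)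
    (ε : G → T) (hdet : ∀ σ ∈ I, LinearMap.det (ρ σ) = ε σ)
    {σ₀ : G} (h0 : σ₀ ∈ I) (hu : IsUnit (ε σ₀ - 1))
    (htr : LinearMap.trace T V (ρ σ₀) - (ε σ₀ + 1) ∈ maximalIdeal T)
    (hcubic : ∀ σ ∈ I, ∀ σ' ∈ I, ∀ τ ∈ I,
      (ρ τ - ε τ • (1 : Module.End T V)) * (ρ σ - 1) * (ρ σ' - 1) = 0) :
    ∃ L : Submodule T V, (∃ b : Basis (Fin 2) T V, L = T ∙ b 0) ∧
      (∀ d ∈ D, ∀ v ∈ L, ρ d v ∈ L) ∧ (∀ σ ∈ I, ∀ v : V, ρ σ v - v ∈ L) := by
  have hd := hdet σ₀ h0
  refine ordinary_of_cubic hV ρ I D hnorm h0 (by rw [hd]; exact hu) (by rw [hd]; exact htr) ?_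
  intro σ hσ σ' hσ' v
  have h1 := LinearMap.congr_fun (hcubic σ hσ σ' hσ' σ₀ h0) v
  rw [hd]
  exact h1

end Main

/-- A local ring which is complete for its maximal ideal is Henselian. -/
theorem henselianLocalRing_of_isAdicComplete (T : Type*) [CommRing T] [IsLocalRing T]
    [IsAdicComplete (maximalIdeal T) T] : HenselianLocalRing T where
  is_henselian f hf a₀ h₁ h₂ :=
    HenselianRing.is_henselian f hf a₀ h₁ (h₂.map (Ideal.Quotient.mk (maximalIdeal T)))

end Fermat.Agent.S33P.A1Cubic58
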