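/-
S33 programme, brick A1 (helper58): the `GaloisRepAdic` form of `ordinary_of_cubic`.
Prelude definitions + `Basic.lean` only.
-/
import Fermat.Prelude.Def_GaloisRep_LocalConditions
import Fermat.Agent.S33P.A1Cubic58.Basic

set_option autoImplicit false
set_option maxHeartbeats 400000

namespace Fermat.Agent.S33P.A1Cubic58

open IsLocalRing TensorProduct

section Inertia

variable {K L : Type*} [Field K] [Field L] [Algebra K L] (P : ValuationSubring L)

lemma inertiaSubgroupIn_le_decomposition :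
    P.inertiaSubgroupIn K ≤ P.decompositionSubgroup K := by
  rintro _ ⟨g, _, rfl⟩
  exact g.2

lemma normal_inertiaSubgroup : (P.inertiaSubgroup K).Normal := by
  unfold ValuationSubring.inertiaSubgroup
  infer_instance

lemma conj_mem_inertiaSubgroupIn_of_mem {d σ : L ≃ₐ[K] L}
    (hd : d ∈ P.decompositionSubgroup K) (hσ : σ ∈ P.inertiaSubgroupIn K) :
    d * σ * d⁻¹ ∈ P.inertiaSubgroupIn K := by
  obtain ⟨g, hg, hgσ⟩ := hσ
  have hn : (P.inertiaSubgroup K).Normal := normal_inertiaSubgroup P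
  have h1 : (⟨d, hd⟩ : P.decompositionSubgroup K) * g *
      (⟨d, hd⟩ : P.decompositionSubgroup K)⁻¹ ∈ P.inertiaSubgroup K :=
    hn.conj_mem g hg ⟨d, hd⟩
  rw [ValuationSubring.inertiaSubgroupIn, Subgroup.mem_map]
  refine ⟨_, h1, ?_⟩
  rw [← hgσ]
  rfl

end Inertia

section Residual

/-- For a representation ordinary at `p` (over any local ring), `tr = det + 1` on inertia. -/
theorem trace_eq_det_add_one_of_isOrdinaryAt {k : Type} [CommRing k] [IsLocalRing k]
    (r : GaloisRepAdic k) {p : ℕ} (h : r.IsOrdinaryAt p)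
    {P : ValuationSubring (AlgebraicClosure ℚ)} (hP : P.LiesOverPrime p)
    {σ : AlgebraicClosure ℚ ≃ₐ[ℚ] AlgebraicClosure ℚ} (hσ : σ ∈ P.inertiaSubgroupIn ℚ) :
    LinearMap.trace k r.V (r.ρ σ) = LinearMap.det (r.ρ σ) + 1 := by
  obtain ⟨Lb, ⟨b, hLb⟩, hD, hI⟩ := h P hP
  have hσD := inertiaSubgroupIn_le_decomposition (K := ℚ) P hσ
  have h0 : r.ρ σ (b 0) ∈ Lb :=
    hD σ hσD (b 0) (by rw [hLb]; exact Submodule.mem_span_singleton_self _)
  have h1 : r.ρ σ (b 1) - b 1 ∈ Lb := hI σ hσ (b 1)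
  rw [hLb, Submodule.mem_span_singleton] at h0 h1
  obtain ⟨a, ha⟩ := h0
  obtain ⟨c, hc⟩ := h1
  exact trace_eq_det_add_one (r.ρ σ) b ha.symm hc.symm

variable {A : Type} [CommRing A] [IsLocalRing A]

/-- Residual ordinarity gives the trace congruence `tr ρ(σ) ≡ det ρ(σ) + 1` on inertia. -/
theorem trace_sub_mem_of_residual (ρ : GaloisRepAdic A) {p : ℕ}
    (hres : (GaloisRepAdic.ofResidualGaloisRep ρ.residual).IsOrdinaryAt p)
    {P : ValuationSubring (AlgebraicClosure ℚ)} (hP : P.LiesOverPrime p)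
    {σ : AlgebraicClosure ℚ ≃ₐ[ℚ] AlgebraicClosure ℚ} (hσ : σ ∈ P.inertiaSubgroupIn ℚ) :
    LinearMap.trace A ρ.V (ρ.ρ σ) - (LinearMap.det (ρ.ρ σ) + 1) ∈ maximalIdeal A := by
  have key : LinearMap.trace (ResidueField A) (ResidueField A ⊗[A] ρ.V)
        ((ρ.ρ σ).baseChange (ResidueField A))
      = LinearMap.det ((ρ.ρ σ).baseChange (ResidueField A)) + 1 :=
    trace_eq_det_add_one_of_isOrdinaryAt (GaloisRepAdic.ofResidualGaloisRep ρ.residual) hres hP hσ
  rw [LinearMap.trace_baseChange, LinearMap.det_baseChange] at key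
  rw [← residue_eq_zero_iff, map_sub, map_add, map_one, sub_eq_zero]
  exact key

end Residual

section Final

variable {A : Type} [CommRing A] [IsLocalRing A] [IsReduced A]
  [IsAdicComplete (maximalIdeal A) A]

/-- **A1, `GaloisRepAdic` form.** Over a reduced complete local ring, a representation whose
residual representation is ordinary at `p` is ordinary at `p` as soon as, for every place `P`
over `p`, there is `σ₀` in the inertia group with `det ρ(σ₀) - 1` a unit and the cubic identity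
`(ρ σ₀ - det ρ σ₀)(ρ σ - 1)(ρ σ' - 1) = 0` holds on inertia. -/
theorem isOrdinaryAt_of_cubic (ρ : GaloisRepAdic A) {p : ℕ}
    (hres : (GaloisRepAdic.ofResidualGaloisRep ρ.residual).IsOrdinaryAt p)
    (hcubic : ∀ P : ValuationSubring (AlgebraicClosure ℚ), P.LiesOverPrime p →
      ∃ σ₀ ∈ P.inertiaSubgroupIn ℚ, IsUnit (LinearMap.det (ρ.ρ σ₀) - 1) ∧
        ∀ σ ∈ P.inertiaSubgroupIn ℚ, ∀ σ' ∈ P.inertiaSubgroupIn ℚ, ∀ v : ρ.V,
          (ρ.ρ σ₀ - LinearMap.det (ρ.ρ σ₀) • (1 : Module.End A ρ.V))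
            ((ρ.ρ σ - 1) ((ρ.ρ σ' - 1) v)) = 0) :
    ρ.IsOrdinaryAt p := by
  intro P hP
  obtain ⟨σ₀, hσ₀, hu, hc⟩ := hcubic P hP
  have hH : HenselianLocalRing A := henselianLocalRing_of_isAdicComplete A
  exact ordinary_of_cubic ρ.finrank_eq ρ.ρ (P.inertiaSubgroupIn ℚ) (P.decompositionSubgroup ℚ)
    (fun d hd σ hσ => conj_mem_inertiaSubgroupIn_of_mem P hd hσ) hσ₀ hu
    (trace_sub_mem_of_residual ρ hres hP hσ₀) hc

end Final

end Fermat.Agent.S33P.A1Cubic58
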